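/-
P-DS / DS-4c (row 461, helper58): `FewValuesStatement` from `EulerLogStatement`,
`FiniteConjStatement` and `IntegralStatement`.

For `c > 0` the eigenvalues `a_p(f)`, `p ∤ N`, all of whose conjugates `a_p(g_i)` satisfy
`|a_p(g_i)|² ≤ c` are algebraic integers of degree `≤ r` with all conjugates of absolute value
`≤ √c`; there are finitely many of them (Northcott).  For the other primes some
`|a_p(g_i)|² > c`, so `p^{-s} log (1 + c) ≤ ∑_i log (1 + |a_p(g_i)|² p^{-s})`, and the Euler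
product inequality for the `g_i` bounds the prime sum by `(r / log (1 + c)) log (1/(s-1)) + C`.
-/
import Fermat.Agent.H20.DS.Interfaces
import Fermat.Agent.H1.RingHomMove

set_option autoImplicit false
set_option linter.style.haveILetI false

noncomputable section

open Polynomial

namespace Fermat.Agent.H58

/-! ### Conjugates via ring endomorphisms of `ℂ` -/

/-- Every complex root of the minimal polynomial of an algebraic number `α` is `σ α` for a ring
endomorphism `σ` of `ℂ`. -/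
theorem fv_exists_ringHom_of_root {α β : ℂ} (hα : IsIntegral ℚ α)
    (hβ : aeval β (minpoly ℚ α) = 0) : ∃ σ : ℂ →+* ℂ, σ α = β := by
  have hβi : IsIntegral ℚ β := ⟨minpoly ℚ α, minpoly.monic hα, hβ⟩
  haveI : IsAlgClosure ℚ (algebraicClosure ℚ ℂ) := algebraicClosure.isAlgClosure ℚ ℂ
  let α' : algebraicClosure ℚ ℂ := ⟨α, (mem_algebraicClosure_iff).2 hα.isAlgebraic⟩
  let β' : algebraicClosure ℚ ℂ := ⟨β, (mem_algebraicClosure_iff).2 hβi.isAlgebraic⟩
  have hmin : minpoly ℚ α' = minpoly ℚ α :=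
    (minpoly.algebraMap_eq (algebraMap (algebraicClosure ℚ ℂ) ℂ).injective α').symm
  have hev : aeval β' (minpoly ℚ α') = 0 := by
    apply (algebraMap (algebraicClosure ℚ ℂ) ℂ).injective
    rw [map_zero, ← aeval_algebraMap_apply, hmin]
    exact hβ
  obtain ⟨f, hf⟩ := minpoly.exists_algEquiv_of_root' (K := ℚ) (L := algebraicClosure ℚ ℂ)
    (Algebra.IsAlgebraic.isAlgebraic α') hev
  obtain ⟨σ, hσ⟩ := Fermat.Agent.H1.exists_ringEquiv_extend (R := algebraicClosure ℚ ℂ)
    f.toRingEquiv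
  refine ⟨σ.toRingHom, ?_⟩
  have h := hσ α'
  have h1 : algebraMap (algebraicClosure ℚ ℂ) ℂ α' = α := rfl
  have h2 : algebraMap (algebraicClosure ℚ ℂ) ℂ (f.toRingEquiv α') = β := by
    change algebraMap (algebraicClosure ℚ ℂ) ℂ (f α') = β
    rw [hf]
    rfl
  rw [h1, h2] at h
  exact h

/-! ### Northcott -/

/-- Finitely many algebraic integers of bounded degree with bounded conjugates. -/
theorem fv_finite_bounded (r : ℕ) (B : ℝ) :
    {α : ℂ | IsIntegral ℤ α ∧ (minpoly ℤ α).natDegree ≤ r ∧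
      ∀ β ∈ ((minpoly ℤ α).map (algebraMap ℤ ℂ)).roots, ‖β‖ ≤ B}.Finite := by
  classical
  let C := Nat.ceil (max B 1 ^ r * r.choose (r / 2))
  have hfin := Polynomial.bUnion_roots_finite (algebraMap ℤ ℂ) r (Set.finite_Icc (-C : ℤ) C)
  refine hfin.subset fun α hα => ?_
  obtain ⟨hint, hdeg, hroots⟩ := hα
  simp only [Set.mem_iUnion]
  refine ⟨minpoly ℤ α, ⟨hdeg, fun i => ?_⟩, ?_⟩
  · have h1 := coeff_bdd_of_roots_le (algebraMap ℤ ℂ) (minpoly.monic hint)
      (IsAlgClosed.splits _) hdeg hroots i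
    rw [coeff_map, eq_intCast, Complex.norm_intCast] at h1
    rw [Set.mem_Icc, ← abs_le, ← @Int.cast_le ℝ]
    push_cast
    exact h1.trans (Nat.le_ceil _)
  · rw [Finset.mem_coe, Multiset.mem_toFinset, mem_roots', IsRoot.def, eval_map_algebraMap]
    exact ⟨(Polynomial.map_ne_zero_iff (algebraMap ℤ ℂ).injective_int).mpr
      (minpoly.ne_zero hint), minpoly.aeval ℤ α⟩

/-- The number of complex roots: an algebraic integer all of whose conjugates lie in a set of
`r` elements has degree `≤ r`. -/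
theorem fv_natDegree_le {α : ℂ} (hint : IsIntegral ℤ α) {r : ℕ} (g : Fin r → ℂ)
    (hg : ∀ β ∈ ((minpoly ℤ α).map (algebraMap ℤ ℂ)).roots, ∃ i, g i = β) :
    (minpoly ℤ α).natDegree ≤ r := by
  classical
  have hmap : (minpoly ℤ α).map (algebraMap ℤ ℂ) = (minpoly ℚ α).map (algebraMap ℚ ℂ) := by
    rw [minpoly.isIntegrallyClosed_eq_field_fractions' ℚ hint, Polynomial.map_map]
    congr 1
  have hsep : ((minpoly ℤ α).map (algebraMap ℤ ℂ)).Separable := by
    rw [hmap]
    exact ((minpoly.irreducible hint.tower_top).separable).map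
  have hcard : ((minpoly ℤ α).map (algebraMap ℤ ℂ)).roots.card = (minpoly ℤ α).natDegree := by
    rw [← (minpoly.monic hint).natDegree_map (algebraMap ℤ ℂ)]
    exact (IsAlgClosed.splits _).natDegree_eq_card_roots.symm
  have hnodup := nodup_roots hsep
  have hsub : ((minpoly ℤ α).map (algebraMap ℤ ℂ)).roots.toFinset ⊆ Finset.univ.image g := by
    intro β hβ
    obtain ⟨i, hi⟩ := hg β (Multiset.mem_toFinset.mp hβ)
    exact Finset.mem_image.mpr ⟨i, Finset.mem_univ i, hi⟩
  calc (minpoly ℤ α).natDegree = ((minpoly ℤ α).map (algebraMap ℤ ℂ)).roots.card := hcard.symm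
    _ = ((minpoly ℤ α).map (algebraMap ℤ ℂ)).roots.toFinset.card :=
        (Multiset.toFinset_card_of_nodup hnodup).symm
    _ ≤ (Finset.univ.image g).card := Finset.card_le_card hsub
    _ ≤ (Finset.univ : Finset (Fin r)).card := Finset.card_image_le
    _ = r := by rw [Finset.card_univ, Fintype.card_fin]

/-! ### The inequality -/

/-- Bernoulli: `t log (1 + c) ≤ log (1 + c t)` for `0 ≤ t ≤ 1`, `c ≥ 0`. -/
theorem fv_log_ineq {c t : ℝ} (hc : 0 ≤ c) (ht0 : 0 ≤ t) (ht1 : t ≤ 1) :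
    t * Real.log (1 + c) ≤ Real.log (1 + c * t) := by
  have h1 : (1 + c) ^ t ≤ 1 + t * c :=
    rpow_one_add_le_one_add_mul_self (by linarith) ht0 ht1
  have hpos : 0 < (1 + c) ^ t := Real.rpow_pos_of_pos (by linarith) t
  have h2 := Real.log_le_log hpos h1
  rw [Real.log_rpow (by linarith)] at h2
  rwa [mul_comm c t]

open Fermat.Agent.H20.DS in
/-- **DS-4c** (row 461): few values. -/
theorem fewValues_of_parts (hE : EulerLogStatement) (hF : FiniteConjStatement)
    (hI : IntegralStatement) : FewValuesStatement := by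
  intro N _ ε f hf eta heta
  classical
  obtain ⟨r, g, ε', hg, hconj⟩ := hF N ε f hf
  have hr : 0 < r := by
    obtain ⟨i, -⟩ := hconj (RingHom.id ℂ)
    exact Fin.pos i
  have hrR : (0 : ℝ) < r := by exact_mod_cast hr
  choose Cg hCg using fun i => hE N (ε' i) (g i) (hg i)
  set c : ℝ := Real.exp (r / eta) - 1 with hc
  have hc0 : 0 < c := by
    have : 1 < Real.exp (r / eta) := Real.one_lt_exp_iff.mpr (by positivity)
    linarith
  have hlog : Real.log (1 + c) = r / eta := by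
    rw [hc, add_sub_cancel, Real.log_exp]
  -- the finite set
  set Y : Finset ℂ := (fv_finite_bounded r (Real.sqrt c)).toFinset with hY
  have hYmem : ∀ p : ℕ, p.Prime → ¬ p ∣ N →
      (∀ i, ‖ModularFormClass.qCoeff (g i) p‖ ^ 2 ≤ c) → ModularFormClass.qCoeff f p ∈ Y := by
    intro p hp hpN hsmall
    rw [hY, Set.Finite.mem_toFinset]
    have hint := hI N ε f hf p hp hpN
    have hroot : ∀ β ∈ ((minpoly ℤ (ModularFormClass.qCoeff f p)).map (algebraMap ℤ ℂ)).roots,
        ∃ i, ModularFormClass.qCoeff (g i) p = β := by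
      intro β hβ
      have hβ' : aeval β (minpoly ℚ (ModularFormClass.qCoeff f p)) = 0 := by
        rw [mem_roots', IsRoot.def, eval_map_algebraMap] at hβ
        rw [minpoly.isIntegrallyClosed_eq_field_fractions' ℚ hint, aeval_map_algebraMap]
        exact hβ.2
      obtain ⟨σ, hσ⟩ := fv_exists_ringHom_of_root hint.tower_top hβ'
      obtain ⟨i, hi⟩ := hconj σ
      exact ⟨i, by rw [hi p hp hpN, hσ]⟩
    refine ⟨hint, fv_natDegree_le hint (fun i => ModularFormClass.qCoeff (g i) p) hroot,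
      fun β hβ => ?_⟩
    obtain ⟨i, hi⟩ := hroot β hβ
    rw [← hi]
    exact Real.le_sqrt_of_sq_le (hsmall i)
  refine ⟨Y, eta * (∑ i, Cg i) / r, fun s hs1 hs2 => ?_⟩
  have hL : 0 ≤ Real.log (1 / (s - 1)) := by
    apply Real.log_nonneg
    rw [le_div_iff₀ (by linarith)]
    linarith
  unfold primeSum
  refine Real.tsum_le_of_sum_le (fun p => Set.indicator_nonneg (fun p _ => by positivity) p)
    (fun u => ?_)
  rw [Finset.sum_indicator_eq_sum_filter]
  set P := u.filter (fun p => p ∈ {p : ℕ | p.Prime ∧ ¬ p ∣ N ∧ ModularFormClass.qCoeff f p ∉ Y})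
    with hPdef
  have hP : ∀ p ∈ P, p.Prime ∧ ¬ p ∣ N ∧ ModularFormClass.qCoeff f p ∉ Y := fun p hp =>
    (Finset.mem_filter.mp hp).2
  -- termwise bound
  have hterm : ∀ p ∈ P, (p : ℝ) ^ (-s) * Real.log (1 + c)
      ≤ ∑ i, Real.log (1 + ‖ModularFormClass.qCoeff (g i) p‖ ^ 2 * (p : ℝ) ^ (-s)) := by
    intro p hp
    obtain ⟨hpp, hpN, hpY⟩ := hP p hp
    have hp1 : (1 : ℝ) ≤ p := by exact_mod_cast hpp.one_lt.le
    have ht0 : (0 : ℝ) ≤ (p : ℝ) ^ (-s) := by positivity
    have ht1 : (p : ℝ) ^ (-s) ≤ 1 := Real.rpow_le_one_of_one_le_of_nonpos hp1 (by linarith)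
    obtain ⟨i, hi⟩ : ∃ i, c < ‖ModularFormClass.qCoeff (g i) p‖ ^ 2 := by
      by_contra hcon
      push Not at hcon
      exact hpY (hYmem p hpp hpN hcon)
    have h1 := fv_log_ineq hc0.le ht0 ht1
    have h2 : Real.log (1 + c * (p : ℝ) ^ (-s))
        ≤ Real.log (1 + ‖ModularFormClass.qCoeff (g i) p‖ ^ 2 * (p : ℝ) ^ (-s)) := by
      apply Real.log_le_log (by positivity)
      have := mul_le_mul_of_nonneg_right hi.le ht0
      linarith
    have h3 : Real.log (1 + ‖ModularFormClass.qCoeff (g i) p‖ ^ 2 * (p : ℝ) ^ (-s))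
        ≤ ∑ j, Real.log (1 + ‖ModularFormClass.qCoeff (g j) p‖ ^ 2 * (p : ℝ) ^ (-s)) :=
      Finset.single_le_sum (f := fun j =>
          Real.log (1 + ‖ModularFormClass.qCoeff (g j) p‖ ^ 2 * (p : ℝ) ^ (-s)))
        (fun j _ => Real.log_nonneg (by
          have : 0 ≤ ‖ModularFormClass.qCoeff (g j) p‖ ^ 2 * (p : ℝ) ^ (-s) := by positivity
          linarith)) (Finset.mem_univ i)
    linarith
  have hsum : (∑ p ∈ P, (p : ℝ) ^ (-s)) * Real.log (1 + c)
      ≤ r * Real.log (1 / (s - 1)) + ∑ i, Cg i := by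
    rw [Finset.sum_mul]
    calc ∑ p ∈ P, (p : ℝ) ^ (-s) * Real.log (1 + c)
        ≤ ∑ p ∈ P, ∑ i, Real.log (1 + ‖ModularFormClass.qCoeff (g i) p‖ ^ 2 * (p : ℝ) ^ (-s)) :=
          Finset.sum_le_sum hterm
      _ = ∑ i, ∑ p ∈ P, Real.log (1 + ‖ModularFormClass.qCoeff (g i) p‖ ^ 2 * (p : ℝ) ^ (-s)) :=
          Finset.sum_comm
      _ ≤ ∑ i : Fin r, (Real.log (1 / (s - 1)) + Cg i) :=
          Finset.sum_le_sum fun i _ => hCg i s hs1 hs2 P (fun p hp => ⟨(hP p hp).1, (hP p hp).2.1⟩)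
      _ = r * Real.log (1 / (s - 1)) + ∑ i, Cg i := by
          rw [Finset.sum_add_distrib, Finset.sum_const, Finset.card_univ, Fintype.card_fin,
            nsmul_eq_mul]
  rw [hlog] at hsum
  have hfin : (∑ p ∈ P, (p : ℝ) ^ (-s))
      = (∑ p ∈ P, (p : ℝ) ^ (-s)) * (r / eta) * (eta / r) := by
    field_simp
  rw [hfin]
  calc (∑ p ∈ P, (p : ℝ) ^ (-s)) * (r / eta) * (eta / r)
      ≤ (r * Real.log (1 / (s - 1)) + ∑ i, Cg i) * (eta / r) :=
        mul_le_mul_of_nonneg_right hsum (by positivity)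
    _ = eta * Real.log (1 / (s - 1)) + eta * (∑ i, Cg i) / r := by
        field_simp

end Fermat.Agent.H58

end
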